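import Mathlib
import Fermat.Agent.S20.T2_helper423
import Fermat.Agent.S24.M7.H47Level1

/-!
# S15 / MOD-B2 (helper902): a lattice with prescribed invariants

`exists_periodPair_g₂_g₃` : for `g₂³ - 27 g₃² ≠ 0` there is a `PeriodPair` `L` with
`L.g₂ = g₂` and `L.g₃ = g₃`.

Proof: `j : ℍ → ℂ` is surjective (`S24.M7.H47.jFun_surjective`, on main), the invariants of
`ℤ + ℤ τ` are `(4/3) π⁴ E₄ τ`, `(8/27) π⁶ E₆ τ` (`S20.T2h423`, on main), and scaling.
-/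

set_option autoImplicit false

open UpperHalfPlane ModularForm EisensteinSeries

noncomputable section

namespace Fermat.Agent.S15.H902

open Fermat.Agent.S20.T2h423 Fermat.Agent.S24.M7.H47 Fermat.Agent.S20.L1

/-- algebra: from `a³ b'² = a'³ b²` with `a³ ≠ 27 b²`, `a'³ ≠ 27 b'²`, find `μ ≠ 0` with
`a' = μ⁴ a`, `b' = μ⁶ b`. -/
theorem exists_scale_h902 (a b a' b' : ℂ) (hd : a ^ 3 - 27 * b ^ 2 ≠ 0)
    (hd' : a' ^ 3 - 27 * b' ^ 2 ≠ 0) (h : a ^ 3 * b' ^ 2 = a' ^ 3 * b ^ 2) :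
    ∃ μ : ℂ, μ ≠ 0 ∧ a' = μ ^ 4 * a ∧ b' = μ ^ 6 * b := by
  by_cases ha : a = 0
  · subst ha
    have hb : b ≠ 0 := by
      intro hb; apply hd; simp [hb]
    have ha' : a' = 0 := by
      have : a' ^ 3 * b ^ 2 = 0 := by rw [← h]; simp
      rcases mul_eq_zero.mp this with h1 | h1
      · exact pow_eq_zero_iff (by norm_num) |>.mp h1
      · exact absurd (pow_eq_zero_iff (by norm_num) |>.mp h1) hb
    subst ha'
    have hb' : b' ≠ 0 := by
      intro hb'; apply hd'; simp [hb']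
    obtain ⟨μ, hμ⟩ := IsAlgClosed.exists_pow_nat_eq (b' / b) (n := 6) (by norm_num)
    refine ⟨μ, ?_, by simp, ?_⟩
    · rintro rfl
      have : b' / b = 0 := by rw [← hμ]; simp
      exact div_ne_zero hb' hb this
    · rw [hμ]; field_simp
  by_cases hb : b = 0
  · subst hb
    have hb' : b' = 0 := by
      have : a ^ 3 * b' ^ 2 = 0 := by rw [h]; simp
      rcases mul_eq_zero.mp this with h1 | h1
      · exact absurd (pow_eq_zero_iff (by norm_num) |>.mp h1) ha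
      · exact pow_eq_zero_iff (by norm_num) |>.mp h1
    subst hb'
    have ha' : a' ≠ 0 := by
      intro ha'; apply hd'; simp [ha']
    obtain ⟨μ, hμ⟩ := IsAlgClosed.exists_pow_nat_eq (a' / a) (n := 4) (by norm_num)
    refine ⟨μ, ?_, ?_, by simp⟩
    · rintro rfl
      have : a' / a = 0 := by rw [← hμ]; simp
      exact div_ne_zero ha' ha this
    · rw [hμ]; field_simp
  have ha' : a' ≠ 0 := by
    rintro rfl
    have : a ^ 3 * b' ^ 2 = 0 := by rw [h]; simp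
    rcases mul_eq_zero.mp this with h1 | h1
    · exact absurd (pow_eq_zero_iff (by norm_num) |>.mp h1) ha
    · have hb' : b' = 0 := pow_eq_zero_iff (by norm_num) |>.mp h1
      apply hd'; simp [hb']
  have hb' : b' ≠ 0 := by
    rintro rfl
    have : a' ^ 3 * b ^ 2 = 0 := by rw [← h]; simp
    rcases mul_eq_zero.mp this with h1 | h1
    · exact absurd (pow_eq_zero_iff (by norm_num) |>.mp h1) ha'
    · exact absurd (pow_eq_zero_iff (by norm_num) |>.mp h1) hb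
  obtain ⟨μ, hμ⟩ := IsAlgClosed.exists_pow_nat_eq (a * b' / (a' * b)) (n := 2) (by norm_num)
  have hμ0 : μ ≠ 0 := by
    rintro rfl
    have : a * b' / (a' * b) = 0 := by rw [← hμ]; simp
    exact div_ne_zero (mul_ne_zero ha hb') (mul_ne_zero ha' hb) this
  have h4 : μ ^ 4 = a' / a := by
    have : μ ^ 4 = (μ ^ 2) ^ 2 := by ring
    rw [this, hμ]
    field_simp
    exact h
  refine ⟨μ, hμ0, ?_, ?_⟩
  · rw [h4]; field_simp
  · have : μ ^ 6 = μ ^ 4 * μ ^ 2 := by ring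
    rw [this, h4, hμ]
    field_simp

/-- the discriminant of the lattice `ℤ + ℤ τ` is not zero -/
theorem g₂_cube_sub_g₃_sq_pairOf_ne_zero (τ : ℍ) :
    (pairOf τ).g₂ ^ 3 - 27 * (pairOf τ).g₃ ^ 2 ≠ 0 := by
  rw [g₂_cube_sub_g₃_sq_pairOf]
  refine mul_ne_zero (pow_ne_zero _ (mul_ne_zero two_ne_zero ?_)) (discriminant_ne_zero τ)
  exact_mod_cast Real.pi_ne_zero

/-- `j(τ) (g₂³ - 27 g₃²) = 1728 g₂³` for the lattice `ℤ + ℤ τ`. -/
theorem jFun_mul_pairOf (τ : ℍ) :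
    jFun τ * ((pairOf τ).g₂ ^ 3 - 27 * (pairOf τ).g₃ ^ 2) = 1728 * (pairOf τ).g₂ ^ 3 := by
  rw [g₂_cube_sub_g₃_sq_pairOf, g₂_pairOf, jFun]
  have hΔ := discriminant_ne_zero τ
  field_simp
  ring

/-- **MOD-B2.** A lattice with prescribed invariants `g₂, g₃`, `g₂³ - 27 g₃² ≠ 0`. -/
theorem exists_periodPair_g₂_g₃ (g2 g3 : ℂ) (h : g2 ^ 3 - 27 * g3 ^ 2 ≠ 0) :
    ∃ L : PeriodPair, L.g₂ = g2 ∧ L.g₃ = g3 := by
  obtain ⟨τ, hτ⟩ := jFun_surjective (1728 * g2 ^ 3 / (g2 ^ 3 - 27 * g3 ^ 2))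
  have h0 := g₂_cube_sub_g₃_sq_pairOf_ne_zero τ
  have hj := jFun_mul_pairOf τ
  rw [hτ] at hj
  set a := (pairOf τ).g₂ with ha
  set b := (pairOf τ).g₃ with hb
  have hrel : a ^ 3 * g3 ^ 2 = g2 ^ 3 * b ^ 2 := by
    field_simp at hj
    linear_combination (1 / 27 : ℂ) * hj
  obtain ⟨μ, hμ0, h2, h3⟩ := exists_scale_h902 a b g2 g3 h0 h hrel
  refine ⟨scalePair μ⁻¹ (inv_ne_zero hμ0) (pairOf τ), ?_, ?_⟩
  · rw [g₂_scalePair, h2, inv_pow, inv_inv]
  · rw [g₃_scalePair, h3, inv_pow, inv_inv]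

end Fermat.Agent.S15.H902

end
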