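import Fermat.Agent.S15.H542.ModBSpec
import Fermat.Agent.S15.H226.WpInj
import Fermat.Agent.S15.H902.LatticeExists

/-!
# S15 / MOD-B3 assembly (helper902): complex uniformisation of elliptic curves

`uniformization : H542.UniformizationStatement` : every Weierstrass curve `E` over `ℂ` with
`Δ ≠ 0` is `ℂ/Λ`, via `z ↦ (℘(z) - b₂/12, (℘'(z) - a₁ x - a₃)/2)`.

Inputs (on main): the lattice with prescribed invariants (`LatticeExists`, B2), the addition
theorem for `℘`, `℘'` and `℘ z = ℘ w ↔ z ≡ ± w` (helper226, `H226/WpAdd`, `H226/WpInj`).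
The non-generic cases of the group law are obtained by the translation trick
`Φ(2z) = Φ(z + t) + Φ(z - t)`; no duplication formula is used.
-/

set_option autoImplicit false

open Filter Topology

noncomputable section

namespace Fermat.Agent.S15.H902

open PeriodPair WeierstrassCurve Fermat.Agent.S15.H226 Fermat.Agent.S15.H542

/-! ### Elementary lattice facts -/

theorem neg_notMem_h902 (L : PeriodPair) {z : ℂ} (hz : z ∉ L.lattice) : -z ∉ L.lattice :=
  fun h => hz (by simpa using neg_mem h)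

theorem add_mem_iff_h902 (L : PeriodPair) {z l : ℂ} (hl : l ∈ L.lattice) :
    z + l ∈ L.lattice ↔ z ∈ L.lattice :=
  ⟨fun h => by simpa using sub_mem h hl, fun h => add_mem h hl⟩

theorem weierstrassP_add_mem_h902 (L : PeriodPair) (z : ℂ) {l : ℂ} (hl : l ∈ L.lattice) :
    ℘[L] (z + l) = ℘[L] z :=
  L.weierstrassP_add_coe z ⟨l, hl⟩

theorem derivWeierstrassP_add_mem_h902 (L : PeriodPair) (z : ℂ) {l : ℂ} (hl : l ∈ L.lattice) :
    ℘'[L] (z + l) = ℘'[L] z :=
  L.derivWeierstrassP_add_coe z ⟨l, hl⟩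

/-! ### `℘` takes every value -/

/-- **U2.** `℘ - c` has a zero off the lattice. -/
theorem exists_weierstrassP_eq_h902 (L : PeriodPair) (c : ℂ) :
    ∃ z, z ∉ L.lattice ∧ ℘[L] z = c := by
  by_contra hcon
  push Not at hcon
  have hmer : Meromorphic fun z => (℘[L] z - c)⁻¹ := by
    have := L.meromorphic_weierstrassP
    fun_prop
  have hord : ∀ z, 0 ≤ meromorphicOrderAt (fun z => (℘[L] z - c)⁻¹) z := by
    intro z
    by_cases hz : z ∈ L.lattice
    · have h1 : meromorphicOrderAt (fun z => ℘[L] z - c) z = -2 := by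
        have hP := L.order_weierstrassP z hz
        have hcm : MeromorphicAt (fun _ : ℂ => -c) z :=
          (analyticAt_const (𝕜 := ℂ) (v := -c) (x := z)).meromorphicAt
        have hc : (0 : WithTop ℤ) ≤ meromorphicOrderAt (fun _ : ℂ => -c) z :=
          (analyticAt_const (𝕜 := ℂ) (v := -c) (x := z)).meromorphicOrderAt_nonneg
        have hlt : meromorphicOrderAt ℘[L] z < meromorphicOrderAt (fun _ : ℂ => -c) z := by
          rw [hP]
          exact lt_of_lt_of_le (by decide) hc
        have := meromorphicOrderAt_add_eq_left_of_lt (f₁ := ℘[L]) (f₂ := fun _ : ℂ => -c)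
          hcm hlt
        rw [hP] at this
        rw [← this]
        rfl
      have h2 := meromorphicOrderAt_inv (f := fun z => ℘[L] z - c) (x := z)
      have h3 : meromorphicOrderAt (fun z => (℘[L] z - c)⁻¹) z = 2 := by
        have : (fun z => (℘[L] z - c)⁻¹) = (fun z => ℘[L] z - c)⁻¹ := rfl
        rw [this, h2, h1]
        rfl
      rw [h3]
      decide
    · have han : AnalyticAt ℂ (fun z => (℘[L] z - c)⁻¹) z := by
        have h1 : AnalyticAt ℂ ℘[L] z := L.analyticOnNhd_weierstrassP z hz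
        have h2 : ℘[L] z - c ≠ 0 := sub_ne_zero.mpr (hcon z hz)
        fun_prop (disch := exact h2)
      exact han.meromorphicOrderAt_nonneg
  have hper : ∀ z, ∀ l ∈ L.lattice, (fun z => (℘[L] z - c)⁻¹) (z + l) =
      (fun z => (℘[L] z - c)⁻¹) z := by
    intro z l hl
    simp only [weierstrassP_add_mem_h902 L z hl]
  obtain ⟨k, hk⟩ := elliptic_const226 L hmer hord hper
  -- `℘` is constant off the lattice
  have hconst : ∀ z, z ∉ L.lattice → ℘[L] z = c + k⁻¹ := by
    intro z hz
    have hcont : ContinuousAt (fun z => (℘[L] z - c)⁻¹) z := by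
      have h1 : ContinuousAt ℘[L] z := (L.analyticOnNhd_weierstrassP z hz).continuousAt
      have h2 : ℘[L] z - c ≠ 0 := sub_ne_zero.mpr (hcon z hz)
      exact (h1.sub continuousAt_const).inv₀ h2
    have h : (℘[L] z - c)⁻¹ = k := hk z hcont
    rw [← h, inv_inv]
    ring
  refine not_forall_derivWeierstrassP_eq_zero226 L fun z hz => ?_
  have hz' : z ∉ L.lattice := hz
  have h1 := hasDerivAt_weierstrassP226 L hz'
  have h2 : HasDerivAt ℘[L] 0 z := by
    refine (hasDerivAt_const z (c + k⁻¹)).congr_of_eventuallyEq ?_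
    filter_upwards [L.isClosed_lattice.isOpen_compl.mem_nhds hz'] with y hy
    exact hconst y hy
  exact h1.unique h2

/-! ### The parametrisation -/

section Param

variable (E : WeierstrassCurve ℂ) (L : PeriodPair)

/-- the `x`-coordinate of the point with parameter `z` -/
def uX (z : ℂ) : ℂ := ℘[L] z - E.b₂ / 12

/-- the `y`-coordinate of the point with parameter `z` -/
def uY (z : ℂ) : ℂ := (℘'[L] z - E.a₁ * uX E L z - E.a₃) / 2

theorem two_uY (z : ℂ) : 2 * uY E L z + E.a₁ * uX E L z + E.a₃ = ℘'[L] z := by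
  simp only [uY]; ring

variable {E L}

theorem equation_u (h2 : L.g₂ = E.c₄ / 12) (h3 : L.g₃ = E.c₆ / 216) {z : ℂ}
    (hz : z ∉ L.lattice) : E.toAffine.Equation (uX E L z) (uY E L z) := by
  rw [WeierstrassCurve.Affine.equation_iff]
  have h := L.derivWeierstrassP_sq z hz
  rw [h2, h3] at h
  simp only [uY, uX, WeierstrassCurve.c₄, WeierstrassCurve.c₆, WeierstrassCurve.b₂,
    WeierstrassCurve.b₄, WeierstrassCurve.b₆] at h ⊢
  linear_combination (1 / 4 : ℂ) * h

theorem nonsingular_u (hΔ : E.Δ ≠ 0) (h2 : L.g₂ = E.c₄ / 12) (h3 : L.g₃ = E.c₆ / 216) {z : ℂ}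
    (hz : z ∉ L.lattice) : E.toAffine.Nonsingular (uX E L z) (uY E L z) :=
  (WeierstrassCurve.Affine.equation_iff_nonsingular_of_Δ_ne_zero hΔ).mp (equation_u h2 h3 hz)

open Classical in
/-- the point with parameter `z` -/
def uPt (hΔ : E.Δ ≠ 0) (h2 : L.g₂ = E.c₄ / 12) (h3 : L.g₃ = E.c₆ / 216) (z : ℂ) :
    E.toAffine.Point :=
  if hz : z ∈ L.lattice then 0 else .some _ _ (nonsingular_u hΔ h2 h3 hz)

variable (hΔ : E.Δ ≠ 0) (h2 : L.g₂ = E.c₄ / 12) (h3 : L.g₃ = E.c₆ / 216)

theorem uPt_of_mem {z : ℂ} (hz : z ∈ L.lattice) : uPt hΔ h2 h3 z = 0 := by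
  simp only [uPt, dif_pos hz]

theorem uPt_of_notMem {z : ℂ} (hz : z ∉ L.lattice) :
    uPt hΔ h2 h3 z = .some _ _ (nonsingular_u hΔ h2 h3 hz) := by
  simp only [uPt, dif_neg hz]

theorem uPt_eq_zero_iff (z : ℂ) : uPt hΔ h2 h3 z = 0 ↔ z ∈ L.lattice := by
  constructor
  · intro h
    by_contra hz
    rw [uPt_of_notMem hΔ h2 h3 hz] at h
    exact WeierstrassCurve.Affine.Point.some_ne_zero _ h
  · exact uPt_of_mem hΔ h2 h3

/-- two points with the same coordinates are equal -/
theorem some_eq_some_h902 {x y x' y' : ℂ} (h : E.toAffine.Nonsingular x y)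
    (h' : E.toAffine.Nonsingular x' y') (hx : x = x') (hy : y = y') :
    (WeierstrassCurve.Affine.Point.some x y h : E.toAffine.Point) =
      WeierstrassCurve.Affine.Point.some x' y' h' := by
  subst hx; subst hy; rfl

theorem uPt_add_mem (z : ℂ) {l : ℂ} (hl : l ∈ L.lattice) :
    uPt hΔ h2 h3 (z + l) = uPt hΔ h2 h3 z := by
  by_cases hz : z ∈ L.lattice
  · rw [uPt_of_mem hΔ h2 h3 hz, uPt_of_mem hΔ h2 h3 (add_mem hz hl)]
  · have hzl : z + l ∉ L.lattice := fun h => hz ((add_mem_iff_h902 L hl).mp h)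
    rw [uPt_of_notMem hΔ h2 h3 hz, uPt_of_notMem hΔ h2 h3 hzl]
    refine some_eq_some_h902 _ _ ?_ ?_
    · simp only [uX, weierstrassP_add_mem_h902 L z hl]
    · simp only [uY, uX, weierstrassP_add_mem_h902 L z hl, derivWeierstrassP_add_mem_h902 L z hl]

theorem uPt_neg (z : ℂ) : uPt hΔ h2 h3 (-z) = -uPt hΔ h2 h3 z := by
  by_cases hz : z ∈ L.lattice
  · rw [uPt_of_mem hΔ h2 h3 hz, uPt_of_mem hΔ h2 h3 (neg_mem hz)]
    rfl
  · rw [uPt_of_notMem hΔ h2 h3 hz, uPt_of_notMem hΔ h2 h3 (neg_notMem_h902 L hz),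
      WeierstrassCurve.Affine.Point.neg_some]
    refine some_eq_some_h902 _ _ ?_ ?_
    · simp only [uX, L.weierstrassP_neg]
    · simp only [uY, uX, L.weierstrassP_neg, L.derivWeierstrassP_neg,
        WeierstrassCurve.Affine.negY]
      ring

variable [DecidableEq ℂ]

/-- the generic case of the addition theorem, in the group of points -/
theorem uPt_add_generic {z w : ℂ} (hz : z ∉ L.lattice) (hw : w ∉ L.lattice)
    (hzw : z + w ∉ L.lattice) (hne : ℘[L] z ≠ ℘[L] w) :
    uPt hΔ h2 h3 (z + w) = uPt hΔ h2 h3 z + uPt hΔ h2 h3 w := by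
  have hx : uX E L z ≠ uX E L w := by
    simp only [uX]
    intro h
    exact hne (by linear_combination h)
  rw [uPt_of_notMem hΔ h2 h3 hz, uPt_of_notMem hΔ h2 h3 hw, uPt_of_notMem hΔ h2 h3 hzw,
    WeierstrassCurve.Affine.Point.add_of_X_ne hx]
  have hP := weierstrassP_add226 L hw hz hzw hne
  have hP' := derivWeierstrassP_add226 L hw hz hzw hne
  have hne' : ℘[L] z - ℘[L] w ≠ 0 := sub_ne_zero.mpr hne
  have hlam' : (℘'[L] z - ℘'[L] w) / (℘[L] z - ℘[L] w) * (℘[L] z - ℘[L] w) =
      ℘'[L] z - ℘'[L] w := div_mul_cancel₀ _ hne'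
  have hsl : E.toAffine.slope (uX E L z) (uX E L w) (uY E L z) (uY E L w) =
      ((℘'[L] z - ℘'[L] w) / (℘[L] z - ℘[L] w) - E.a₁) / 2 := by
    rw [WeierstrassCurve.Affine.slope_of_X_ne hx,
      div_eq_div_iff (sub_ne_zero.mpr hx) two_ne_zero]
    simp only [uY, uX]
    linear_combination (-1 : ℂ) * hlam'
  set lam := (℘'[L] z - ℘'[L] w) / (℘[L] z - ℘[L] w) with hlam
  have hX : uX E L (z + w) =
      E.toAffine.addX (uX E L z) (uX E L w)
        (E.toAffine.slope (uX E L z) (uX E L w) (uY E L z) (uY E L w)) := by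
    rw [hsl]
    simp only [WeierstrassCurve.Affine.addX, uX, hP, WeierstrassCurve.b₂]
    ring
  refine some_eq_some_h902 _ _ hX ?_
  rw [WeierstrassCurve.Affine.addY, WeierstrassCurve.Affine.negAddY,
    WeierstrassCurve.Affine.negY, ← hX, hsl]
  simp only [uY, hP']
  simp only [uX]
  ring

/-- doubling, by the translation trick -/
theorem uPt_two {z : ℂ} (h2z : z + z ∉ L.lattice) :
    uPt hΔ h2 h3 (z + z) = uPt hΔ h2 h3 z + uPt hΔ h2 h3 z := by
  have hz : z ∉ L.lattice := fun h => h2z (add_mem h h)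
  -- a generic translation `t`
  obtain ⟨t, ht2, hzt, hzt'⟩ : ∃ t : ℂ, t + t ∉ L.lattice ∧ z + t ∉ L.lattice ∧
      z - t ∉ L.lattice := by
    by_cases h : z + z / 2 ∈ L.lattice
    · refine ⟨z / 3, ?_, ?_, ?_⟩
      · intro h'
        apply h2z
        have := add_mem (add_mem h' h') h'
        convert this using 1
        ring
      · intro h'
        apply hz
        have h4 : z + z + (z + z) ∈ L.lattice := by
          have := add_mem (add_mem h' h') h'
          convert this using 1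
          ring
        have h3z : z + z + z ∈ L.lattice := by
          have := add_mem h h
          convert this using 1
          ring
        have := sub_mem h4 h3z
        convert this using 1
        ring
      · intro h'
        apply h2z
        have := add_mem (add_mem h' h') h'
        convert this using 1
        ring
    · refine ⟨z / 2, ?_, h, ?_⟩
      · intro h'
        apply hz
        convert h' using 1
        ring
      · intro h'
        apply hz
        have := add_mem h' h'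
        convert this using 1
        ring
  have ht : t ∉ L.lattice := fun h => ht2 (add_mem h h)
  have hnt : -t ∉ L.lattice := neg_notMem_h902 L ht
  have hzt'' : z + -t ∉ L.lattice := by rwa [← sub_eq_add_neg]
  -- `℘ z ≠ ℘ t`
  have hne1 : ℘[L] z ≠ ℘[L] t := by
    intro h
    rcases (weierstrassP_eq_iff226 L hz ht).mp h with h' | h'
    · exact hzt' h'
    · exact hzt h'
  have hne2 : ℘[L] z ≠ ℘[L] (-t) := by rwa [L.weierstrassP_neg]
  -- `℘ (z + t) ≠ ℘ (z - t)`
  have hne3 : ℘[L] (z + t) ≠ ℘[L] (z + -t) := by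
    intro h
    rcases (weierstrassP_eq_iff226 L hzt hzt'').mp h with h' | h'
    · apply ht2
      convert h' using 1
      ring
    · apply h2z
      convert h' using 1
      ring
  have hsum : z + t + (z + -t) = z + z := by ring
  have e1 := uPt_add_generic hΔ h2 h3 hzt hzt'' (by rwa [hsum]) hne3
  have e2 := uPt_add_generic hΔ h2 h3 hz ht hzt hne1
  have e3 := uPt_add_generic hΔ h2 h3 hz hnt hzt'' hne2
  rw [hsum] at e1
  rw [e1, e2, e3, uPt_neg]
  abel

/-- **the parametrisation is additive** -/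
theorem uPt_add (z w : ℂ) :
    uPt hΔ h2 h3 (z + w) = uPt hΔ h2 h3 z + uPt hΔ h2 h3 w := by
  by_cases hz : z ∈ L.lattice
  · rw [add_comm z w, uPt_add_mem hΔ h2 h3 w hz, uPt_of_mem hΔ h2 h3 hz, zero_add]
  by_cases hw : w ∈ L.lattice
  · rw [uPt_add_mem hΔ h2 h3 z hw, uPt_of_mem hΔ h2 h3 hw, add_zero]
  by_cases hzw : z + w ∈ L.lattice
  · have e : w = -z + (z + w) := by ring
    have hw' : uPt hΔ h2 h3 w = -uPt hΔ h2 h3 z := by
      conv_lhs => rw [e]
      rw [uPt_add_mem hΔ h2 h3 (-z) hzw, uPt_neg]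
    rw [uPt_of_mem hΔ h2 h3 hzw, hw', add_neg_cancel]
  by_cases hne : ℘[L] z = ℘[L] w
  · rcases (weierstrassP_eq_iff226 L hz hw).mp hne with h | h
    · -- `w = z - l`
      have hl : -(z - w) ∈ L.lattice := neg_mem h
      have e : w = z + -(z - w) := by ring
      have e' : z + w = z + z + -(z - w) := by ring
      have h2z : z + z ∉ L.lattice := by
        intro h'
        apply hzw
        rw [e']
        exact add_mem h' hl
      have hw' : uPt hΔ h2 h3 w = uPt hΔ h2 h3 z := by
        conv_lhs => rw [e]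
        exact uPt_add_mem hΔ h2 h3 z hl
      rw [hw', e', uPt_add_mem hΔ h2 h3 (z + z) hl]
      exact uPt_two hΔ h2 h3 h2z
    · exact absurd h hzw
  · exact uPt_add_generic hΔ h2 h3 hz hw hzw hne

/-- the parametrisation as a homomorphism -/
def uHom : ℂ →+ E.toAffine.Point :=
  AddMonoidHom.mk' (uPt hΔ h2 h3) (uPt_add hΔ h2 h3)

theorem uHom_apply (z : ℂ) : uHom hΔ h2 h3 z = uPt hΔ h2 h3 z := rfl

theorem uHom_surjective : Function.Surjective (uHom hΔ h2 h3) := by
  intro P
  rcases P with _ | ⟨x, y, hxy⟩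
  · exact ⟨0, by rw [uHom_apply, uPt_of_mem hΔ h2 h3 (zero_mem _)]; rfl⟩
  · obtain ⟨z, hz, hzx⟩ := exists_weierstrassP_eq_h902 L (x + E.b₂ / 12)
    have hX : uX E L z = x := by simp only [uX, hzx]; ring
    have heq := (WeierstrassCurve.Affine.equation_iff _ _).mp hxy.1
    have heq' := (WeierstrassCurve.Affine.equation_iff _ _).mp (equation_u h2 h3 hz)
    rw [hX] at heq'
    have hy : (uY E L z - y) * (uY E L z - E.toAffine.negY x y) = 0 := by
      simp only [WeierstrassCurve.Affine.negY]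
      linear_combination heq' - heq
    rcases mul_eq_zero.mp hy with h | h
    · refine ⟨z, ?_⟩
      rw [uHom_apply, uPt_of_notMem hΔ h2 h3 hz]
      exact some_eq_some_h902 _ _ hX (sub_eq_zero.mp h)
    · refine ⟨-z, ?_⟩
      rw [uHom_apply, uPt_neg, uPt_of_notMem hΔ h2 h3 hz,
        WeierstrassCurve.Affine.Point.neg_some]
      refine some_eq_some_h902 _ _ hX ?_
      rw [sub_eq_zero.mp h, hX]
      simp only [WeierstrassCurve.Affine.negY]
      ring

end Param

/-- **MOD-B2 + B3.**  Every elliptic curve over `ℂ` has a uniformisation. -/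
theorem uniformization : UniformizationStatement := by
  intro _ E hΔ
  have hd : (E.c₄ / 12) ^ 3 - 27 * (E.c₆ / 216) ^ 2 ≠ 0 := by
    have h := E.c_relation
    intro h0
    apply hΔ
    linear_combination (1 : ℂ) * h0 + (1 / 1728 : ℂ) * h
  obtain ⟨L, h2, h3⟩ := exists_periodPair_g₂_g₃ (E.c₄ / 12) (E.c₆ / 216) hd
  refine ⟨⟨L, h2, h3, uHom hΔ h2 h3, uHom_surjective hΔ h2 h3, ?_, ?_, ?_⟩⟩
  · intro z
    rw [uHom_apply]
    exact uPt_eq_zero_iff hΔ h2 h3 z
  · intro z hz
    rw [uHom_apply, uPt_of_notMem hΔ h2 h3 hz]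
    rfl
  · intro z hz
    rw [uHom_apply, uPt_of_notMem hΔ h2 h3 hz]
    show 2 * uY E L z + E.a₁ * uX E L z + E.a₃ = ℘'[L] z
    exact two_uY E L z

end Fermat.Agent.S15.H902

end
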